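/-
S26, package P8 (CURVES), leaf L3 = C4 (helper525): normalisation of an affine curve, algebra.

* `c4_fg_integralClosure_of_perfect` / `c4_finite_integralClosure_of_perfect`:
  a finitely generated domain `R` over a perfect field `K` has module-finite integral closure in
  its fraction field (any dimension; Noether normalisation + separable case + Frobenius twist).
* `c4_isMaximal_of_trdeg_le_one`: `Algebra.trdeg K R ≤ 1`, `R` a domain ⟹ nonzero primes are maximal.
* `c4_finite_and_isDedekindDomain`: the board statement of C4.
-/
import Mathlib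

universe u v

namespace Fermat.Agent.S26.Curves.H525
open scoped BigOperators

/-- Over a perfect field, the polynomial ring in finitely many variables is finite over the image
of the iterated Frobenius: every polynomial is a combination `∑ aᵢ ^ (q ^ e) * mᵢ` of finitely many
fixed monomials `mᵢ`. -/
theorem c4_mvPolynomial_frobenius_decomp (K : Type*) [Field K] [PerfectField K] (q : ℕ) [ExpChar K q]
    (σ : Type) [Fintype σ] (e : ℕ) :
    ∃ (ι : Type) (_ : Fintype ι) (m : ι → MvPolynomial σ K),
      ∀ f : MvPolynomial σ K, ∃ a : ι → MvPolynomial σ K, f = ∑ i, a i ^ (q ^ e) * m i := by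
  classical
  have hN : 0 < q ^ e := pow_pos (expChar_pos K q) e
  have : PerfectRing K q := PerfectField.toPerfectRing q
  refine ⟨σ → Fin (q ^ e), inferInstance, fun u =>
    MvPolynomial.monomial (Finsupp.equivFunOnFinite.symm fun i => (u i : ℕ)) 1, ?_⟩
  intro f
  induction f using MvPolynomial.induction_on' with
  | monomial c r =>
    obtain ⟨r', hr'⟩ : ∃ r' : K, r' ^ (q ^ e) = r :=
      ⟨(iterateFrobeniusEquiv K q e).symm r, by
        rw [← iterateFrobenius_def, ← coe_iterateFrobeniusEquiv, RingEquiv.apply_symm_apply]⟩
    let u₀ : σ → Fin (q ^ e) := fun i => ⟨c i % q ^ e, Nat.mod_lt _ hN⟩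
    refine ⟨fun u => if u = u₀ then
      MvPolynomial.monomial (Finsupp.equivFunOnFinite.symm fun i => c i / q ^ e) r' else 0, ?_⟩
    rw [Finset.sum_eq_single u₀]
    · have hc : (q ^ e • Finsupp.equivFunOnFinite.symm fun i => c i / q ^ e) +
          Finsupp.equivFunOnFinite.symm (fun i => ((u₀ i : Fin (q ^ e)) : ℕ)) = c := by
        ext i
        simp [u₀, Nat.div_add_mod]
      simp only [if_true, MvPolynomial.monomial_pow, MvPolynomial.monomial_mul, mul_one, hr', hc]
    · intro u _ hu
      simp [hu, zero_pow hN.ne']
    · intro h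
      exact absurd (Finset.mem_univ _) h
  | add f g hf hg =>
    obtain ⟨a, ha⟩ := hf
    obtain ⟨b, hb⟩ := hg
    refine ⟨a + b, ?_⟩
    have : ExpChar (MvPolynomial σ K) q := inferInstance
    simp only [Pi.add_apply, add_pow_expChar_pow, add_mul, Finset.sum_add_distrib, ← ha, ← hb]

/-- Finiteness of integral closure from the separable case plus a Frobenius decomposition of the
base ring. -/
theorem c4_fg_integralClosure_of_frobenius_decomp
    {A F L : Type*} [CommRing A] [IsDomain A] [IsIntegrallyClosed A] [IsNoetherianRing A]
    [Field F] [Algebra A F] [IsFractionRing A F] [Field L] [Algebra F L] [Algebra A L]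
    [IsScalarTower A F L] [FiniteDimensional F L]
    (q : ℕ) [ExpChar F q]
    (hfrob : ∀ e : ℕ, ∃ (ι : Type) (_ : Fintype ι) (m : ι → A),
      ∀ f : A, ∃ a : ι → A, f = ∑ i, a i ^ (q ^ e) * m i) :
    (integralClosure A L).toSubmodule.FG := by
  classical
  have hAF : Function.Injective (algebraMap A F) := IsFractionRing.injective A F
  have hFL : Function.Injective (algebraMap F L) := (algebraMap F L).injective
  have : ExpChar A q := RingHom.expChar (algebraMap A F) hAF q
  have : ExpChar L q := expChar_of_injective_ringHom hFL q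
  let Fs := separableClosure F L
  have : ExpChar Fs q := expChar_of_injective_ringHom (algebraMap F Fs).injective q
  have : IsScalarTower A Fs L := IsScalarTower.of_algebraMap_eq (fun x => rfl)
  let e := IsPurelyInseparable.exponent Fs L
  have hexp : ∀ x : L, x ^ q ^ e ∈ (algebraMap Fs L).range :=
    fun x => IsPurelyInseparable.exponent_def' Fs q x
  have hpowinj : ∀ x y : L, x ^ q ^ e = y ^ q ^ e → x = y := by
    intro x y h
    exact iterateFrobenius_inj L q e (by simpa [iterateFrobenius_def] using h)
  -- the separable part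
  have hC : IsNoetherian A (integralClosure A Fs) :=
    IsIntegralClosure.isNoetherian A F Fs (integralClosure A Fs)
  let T : Submodule A L :=
    (integralClosure A Fs).toSubmodule.map (IsScalarTower.toAlgHom A Fs L).toLinearMap
  have hCfg : (Subalgebra.toSubmodule (integralClosure A Fs)).FG :=
    Module.Finite.iff_fg.mp (Module.IsNoetherian.finite A (integralClosure A Fs))
  have hT : T.FG := hCfg.map _
  have hmemT : ∀ b : L, IsIntegral A b → b ^ q ^ e ∈ T := by
    intro b hb
    obtain ⟨z, hz⟩ := hexp b
    refine ⟨z, ?_, hz⟩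
    have : IsIntegral A (algebraMap Fs L z) := hz ▸ hb.pow _
    exact (isIntegral_algebraMap_iff (algebraMap Fs L).injective).mp this
  obtain ⟨r, ω, hω⟩ := Submodule.fg_iff_exists_fin_generating_family.mp hT
  obtain ⟨ι, _, m, hm⟩ := hfrob e
  let Ψ : (ι × Fin r → A) → L :=
    fun a => ∑ p : ι × Fin r, algebraMap A L (a p ^ (q ^ e) * m p.1) * ω p.2
  have hΨadd : ∀ a b, Ψ (a + b) = Ψ a + Ψ b := by
    intro a b
    simp only [Ψ, Pi.add_apply, add_pow_expChar_pow, add_mul, map_add, Finset.sum_add_distrib]
  have hΨsmul : ∀ (c : A) a, Ψ (c • a) = algebraMap A L c ^ (q ^ e) * Ψ a := by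
    intro c a
    simp only [Ψ, Pi.smul_apply, smul_eq_mul, mul_pow, map_mul, map_pow, Finset.mul_sum]
    refine Finset.sum_congr rfl fun p _ => by ring
  let N : Submodule A (ι × Fin r → A) :=
    { carrier := {a | ∃ b ∈ integralClosure A L, Ψ a = b ^ (q ^ e)}
      add_mem' := by
        rintro a b ⟨x, hx, hax⟩ ⟨y, hy, hby⟩
        exact ⟨x + y, add_mem hx hy, by rw [hΨadd, hax, hby, add_pow_expChar_pow]⟩
      zero_mem' := ⟨0, zero_mem _, by simp [Ψ, zero_pow (pow_pos (expChar_pos F q) e).ne']⟩
      smul_mem' := by
        rintro c a ⟨x, hx, hax⟩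
        exact ⟨algebraMap A L c * x, mul_mem (algebraMap_mem _ c) hx, by rw [hΨsmul, hax, mul_pow]⟩ }
  have hN : N.FG := IsNoetherian.noetherian N
  obtain ⟨k, ν, hν⟩ := Submodule.fg_iff_exists_fin_generating_family.mp hN
  have hνN : ∀ j, ν j ∈ N := fun j => hν ▸ Submodule.subset_span ⟨j, rfl⟩
  choose β hβ hβ' using hνN
  rw [Submodule.fg_iff_exists_fin_generating_family]
  refine ⟨k, β, le_antisymm (Submodule.span_le.mpr ?_) ?_⟩
  · rintro _ ⟨j, rfl⟩
    exact hβ j
  · intro b hb
    -- `b ^ q ^ e = Ψ a` for some `a ∈ N`
    have hbT : b ^ q ^ e ∈ Submodule.span A (Set.range ω) := hω ▸ hmemT b hb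
    obtain ⟨f, hf⟩ := (Submodule.mem_span_range_iff_exists_fun A).mp hbT
    choose a ha using fun j => hm (f j)
    have hΨa : Ψ (fun p => a p.2 p.1) = b ^ q ^ e := by
      rw [← hf]
      simp only [Ψ, Fintype.sum_prod_type]
      rw [Finset.sum_comm]
      refine Finset.sum_congr rfl fun j _ => ?_
      rw [Algebra.smul_def, ha j, map_sum, Finset.sum_mul]
    have haN : (fun p : ι × Fin r => a p.2 p.1) ∈ N := ⟨b, hb, hΨa⟩
    -- induction over the span
    have key : ∀ a ∈ Submodule.span A (Set.range ν),
        ∃ b' ∈ Submodule.span A (Set.range β), Ψ a = b' ^ q ^ e := by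
      intro a ha
      induction ha using Submodule.span_induction with
      | mem x hx =>
        obtain ⟨j, rfl⟩ := hx
        exact ⟨β j, Submodule.subset_span ⟨j, rfl⟩, hβ' j⟩
      | zero => exact ⟨0, zero_mem _, by simp [Ψ, zero_pow (pow_pos (expChar_pos F q) e).ne']⟩
      | add x y _ _ hx hy =>
        obtain ⟨x', hx', hxx⟩ := hx
        obtain ⟨y', hy', hyy⟩ := hy
        exact ⟨x' + y', add_mem hx' hy', by rw [hΨadd, hxx, hyy, add_pow_expChar_pow]⟩
      | smul c x _ hx =>
        obtain ⟨x', hx', hxx⟩ := hx
        refine ⟨c • x', Submodule.smul_mem _ c hx', ?_⟩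
        rw [hΨsmul, hxx, Algebra.smul_def, mul_pow]
    obtain ⟨b', hb', hΨb'⟩ := key _ (hν ▸ haN)
    rw [hpowinj b b' (hΨa.symm.trans hΨb')]
    exact hb'

/-- **Finiteness of the integral closure (N-2).**  A finitely generated domain `R` over a perfect
field `K` has a module-finite integral closure in its fraction field `L`. -/
theorem c4_fg_integralClosure_of_perfect (K : Type*) [Field K] [PerfectField K]
    (R : Type*) [CommRing R] [IsDomain R] [Algebra K R] [Algebra.FiniteType K R]
    (L : Type*) [Field L] [Algebra R L] [IsFractionRing R L] :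
    (integralClosure R L).toSubmodule.FG := by
  obtain ⟨s, g, hginj, hgfin⟩ := exists_finite_inj_algHom_of_fg K R
  let A := MvPolynomial (Fin s) K
  let : Algebra A R := g.toRingHom.toAlgebra
  let : Algebra A L := ((algebraMap R L).comp g.toRingHom).toAlgebra
  have : IsScalarTower A R L := IsScalarTower.of_algebraMap_eq (fun _ => rfl)
  have : Module.Finite A R := hgfin
  have : FaithfulSMul A R := (faithfulSMul_iff_algebraMap_injective A R).mpr hginj
  have : FaithfulSMul A L := (faithfulSMul_iff_algebraMap_injective A L).mpr
    ((IsFractionRing.injective R L).comp hginj)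
  let : Algebra (FractionRing A) L := FractionRing.liftAlgebra A L
  have : IsScalarTower A (FractionRing A) L := FractionRing.isScalarTower_liftAlgebra A L
  have : Algebra.IsIntegral A R := Algebra.IsIntegral.of_finite A R
  have : IsLocalization (Algebra.algebraMapSubmonoid R (nonZeroDivisors A)) L := inferInstance
  have : FiniteDimensional (FractionRing A) L :=
    Module.Finite.of_isLocalization A R (nonZeroDivisors A)
  obtain ⟨q, hq⟩ := ExpChar.exists K
  have : ExpChar A q := inferInstance
  have : ExpChar (FractionRing A) q :=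
    expChar_of_injective_algebraMap (IsFractionRing.injective A (FractionRing A)) q
  obtain ⟨S, hS⟩ := c4_fg_integralClosure_of_frobenius_decomp (A := A) (F := FractionRing A) (L := L) q
    (fun e => c4_mvPolynomial_frobenius_decomp K q (Fin s) e)
  refine ⟨S, le_antisymm (Submodule.span_le.mpr fun x hx => ?_) fun x hx => ?_⟩
  · have hxA : x ∈ integralClosure A L := by
      have : x ∈ Submodule.span A (S : Set L) := Submodule.subset_span hx
      rwa [hS] at this
    exact IsIntegral.tower_top (A := R) hxA
  · have hxA : x ∈ Submodule.span A (S : Set L) := by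
      rw [hS]
      exact isIntegral_trans (R := A) (A := R) x hx
    exact Submodule.span_le_restrictScalars A R (S : Set L) hxA

/-- Module-finiteness form of `c4_fg_integralClosure_of_perfect`. -/
theorem c4_finite_integralClosure_of_perfect (K : Type*) [Field K] [PerfectField K]
    (R : Type*) [CommRing R] [IsDomain R] [Algebra K R] [Algebra.FiniteType K R]
    (L : Type*) [Field L] [Algebra R L] [IsFractionRing R L] :
    Module.Finite R (integralClosure R L) :=
  Module.Finite.iff_fg.mpr (c4_fg_integralClosure_of_perfect K R L)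

/-- The normalisation of a one-dimensional finitely generated domain over a perfect field is a
Dedekind domain. -/
theorem c4_isDedekindDomain_integralClosure_of_perfect (K : Type*) [Field K] [PerfectField K]
    (R : Type*) [CommRing R] [IsDomain R] [Algebra K R] [Algebra.FiniteType K R]
    [Ring.DimensionLEOne R]
    (L : Type*) [Field L] [Algebra R L] [IsFractionRing R L] :
    IsDedekindDomain (integralClosure R L) := by
  have hfin : Module.Finite R (integralClosure R L) := c4_finite_integralClosure_of_perfect K R L
  have hnoeth : IsNoetherianRing R := Algebra.FiniteType.isNoetherianRing K R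
  have h1 : IsNoetherianRing (integralClosure R L) :=
    isNoetherianRing_iff.mpr (isNoetherian_of_tower R (isNoetherian_of_isNoetherianRing_of_finite R _))
  have h2 : Ring.DimensionLEOne (integralClosure R L) := inferInstance
  have h3 : IsIntegrallyClosed (integralClosure R L) :=
    integralClosure.isIntegrallyClosedOfFiniteExtension (R := R) L (L := L)
  exact { h1, h2, h3 with }

open Polynomial in
/-- A nonzero polynomial relation for a nonzero element of a domain can be normalised to have
nonzero constant coefficient. -/
theorem c4_exists_coeff_zero_ne_zero {B R : Type*} [CommRing B] [Nontrivial B] [CommRing R]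
    [IsDomain R] [Algebra B R]
    {h : R} (hh : h ≠ 0) : ∀ (n : ℕ) (G : B[X]), G.natDegree = n → G ≠ 0 → aeval h G = 0 →
      ∃ G₁ : B[X], G₁.coeff 0 ≠ 0 ∧ aeval h G₁ = 0 := by
  intro n
  induction n using Nat.strong_induction_on with
  | _ n ih =>
    intro G hn hG0 hG
    by_cases hc : G.coeff 0 = 0
    · obtain ⟨G', rfl⟩ := X_dvd_iff.mpr hc
      have hG'0 : G' ≠ 0 := fun h0 => hG0 (by rw [h0, mul_zero])
      have hG' : aeval h G' = 0 := by
        rw [map_mul, aeval_X] at hG
        exact (mul_eq_zero.mp hG).resolve_left hh
      have hdeg : G'.natDegree < n := by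
        rw [← hn, natDegree_X_mul hG'0]
        exact Nat.lt_succ_self _
      exact ih _ hdeg G' rfl hG'0 hG'
    · exact ⟨G, hc, hG⟩

/-- In a domain of transcendence degree at most one over a field, every nonzero prime is
maximal. -/
theorem c4_isMaximal_of_trdeg_le_one {K : Type u} {R : Type v} [Field K] [CommRing R] [IsDomain R]
    [Algebra K R] (htr : Algebra.trdeg K R ≤ 1) (P : Ideal R) [hP : P.IsPrime] (hP0 : P ≠ ⊥) :
    P.IsMaximal := by
  have halg : Algebra.IsAlgebraic K (R ⧸ P) := by
    by_contra hna
    rw [← Algebra.transcendental_iff_not_isAlgebraic] at hna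
    obtain ⟨xbar, hxbar⟩ := hna
    obtain ⟨x, rfl⟩ := Ideal.Quotient.mk_surjective xbar
    obtain ⟨h0, h0P, h0ne⟩ := Submodule.exists_mem_ne_zero_of_ne_bot hP0
    have hx : Transcendental K x := fun hxa => hxbar (hxa.algHom (Ideal.Quotient.mkₐ K P))
    have hh : Transcendental (Algebra.adjoin K (Set.range (fun _ : PUnit.{v+1} => x))) h0 := by
      rintro ⟨G, hG0, hG⟩
      obtain ⟨G₁, hc, hG₁⟩ := c4_exists_coeff_zero_ne_zero h0ne _ G rfl hG0 hG
      set c₀ := G₁.coeff 0 with hc₀
      have hcP : (c₀ : R) ∈ P := by
        have h1 : Polynomial.aeval h0 (G₁.divX * Polynomial.X + Polynomial.C c₀) = 0 := by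
          rw [hc₀, Polynomial.divX_mul_X_add]; exact hG₁
        rw [map_add, map_mul, Polynomial.aeval_X, Polynomial.aeval_C] at h1
        have h2 : (c₀ : R) = -(Polynomial.aeval h0 G₁.divX * h0) := by
          rw [eq_neg_iff_add_eq_zero, add_comm]; exact h1
        rw [h2]
        exact P.neg_mem (P.mul_mem_left _ h0P)
      have hmem : (c₀ : R) ∈ Algebra.adjoin K ({x} : Set R) := by
        have := c₀.2
        simpa using this
      rw [Algebra.adjoin_singleton_eq_range_aeval] at hmem
      obtain ⟨p, hp⟩ := hmem
      have hp0 : p ≠ 0 := by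
        rintro rfl
        apply hc
        ext
        simpa using hp.symm
      apply hxbar
      refine ⟨p, hp0, ?_⟩
      have : Polynomial.aeval (Ideal.Quotient.mkₐ K P x) p = Ideal.Quotient.mkₐ K P (Polynomial.aeval x p) :=
        Polynomial.aeval_algHom_apply _ _ _
      change Polynomial.aeval (Ideal.Quotient.mkₐ K P x) p = 0
      rw [this]
      change Ideal.Quotient.mk P (Polynomial.aeval x p) = 0
      rw [Ideal.Quotient.eq_zero_iff_mem]
      have hp' : Polynomial.aeval x p = (c₀ : R) := hp
      rw [hp']
      exact hcP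
    have hind : AlgebraicIndependent K (fun o : Option PUnit.{v+1} => o.elim h0 (fun _ => x)) :=
      AlgebraicIndependent.option_iff.mpr ⟨algebraicIndependent_unique_type_iff.mpr hx, hh⟩
    have h2 := hind.cardinalMk_le_trdeg
    have h3 : (2 : Cardinal.{v}) ≤ 1 := by
      refine le_trans ?_ (le_trans h2 htr)
      simp
    exact absurd h3 (by norm_num)
  have : Algebra.IsIntegral K (R ⧸ P) := Algebra.IsAlgebraic.isIntegral
  exact Ideal.Quotient.maximal_of_isField _
    (isField_of_isIntegral_of_isField' (Field.toIsField K))

/-- `Algebra.trdeg K R ≤ 1` for a domain `R` gives Krull dimension at most one. -/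
theorem c4_dimensionLEOne_of_trdeg_le_one {K : Type u} {R : Type v} [Field K] [CommRing R] [IsDomain R]
    [Algebra K R] (htr : Algebra.trdeg K R ≤ 1) : Ring.DimensionLEOne R :=
  ⟨fun {P} hP0 _ => c4_isMaximal_of_trdeg_le_one htr P hP0⟩

/-- A finitely generated domain over a field with `trdeg = 1` is not a field, and neither is any
integral extension domain. -/
theorem c4_not_isField_of_trdeg_eq_one {K : Type u} {R : Type v} [Field K] [CommRing R] [IsDomain R]
    [Algebra K R] [Algebra.FiniteType K R] (htr : Algebra.trdeg K R = 1) : ¬ IsField R := by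
  intro hR
  let : Field R := hR.toField
  have : Module.Finite K R := finite_of_finite_type_of_isJacobsonRing K R
  have h0 : Algebra.trdeg K R = 0 := trdeg_eq_zero
  rw [h0] at htr
  exact zero_ne_one htr

/-- **Leaf C4 (curve normalisation, algebra).**  `K` a perfect field, `R` a finitely generated
`K`-domain with `Algebra.trdeg K R = 1`, `L` its fraction field.  Then the integral closure of `R`
in `L` is a finite `R`-module, a Dedekind domain, and not a field. -/
theorem c4_finite_and_isDedekindDomain (K : Type u) [Field K] [PerfectField K]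
    (R : Type v) [CommRing R] [IsDomain R] [Algebra K R] [Algebra.FiniteType K R]
    (htr : Algebra.trdeg K R = 1)
    (L : Type*) [Field L] [Algebra R L] [IsFractionRing R L] :
    Module.Finite R (integralClosure R L) ∧ IsDedekindDomain (integralClosure R L) ∧
      ¬ IsField (integralClosure R L) := by
  have : Ring.DimensionLEOne R := c4_dimensionLEOne_of_trdeg_le_one htr.le
  refine ⟨c4_finite_integralClosure_of_perfect K R L, c4_isDedekindDomain_integralClosure_of_perfect K R L,
    fun hF => c4_not_isField_of_trdeg_eq_one htr ?_⟩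
  have : Algebra.IsIntegral R (integralClosure R L) := inferInstance
  exact isField_of_isIntegral_of_isField
    (FaithfulSMul.algebraMap_injective R (integralClosure R L)) hF

end Fermat.Agent.S26.Curves.H525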