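/-
S26, package P8 (CURVES), commutative-algebra core (helper525).

A normal affine curve over an algebraically closed field is smooth of relative dimension one:
if `D` is a finite-type `K`-algebra which is a Dedekind domain and `m` is a nonzero maximal ideal,
then a uniformiser `t ∈ m \ m²` defines `K[X] → D` which is étale at `m`; hence some
`D[1/g]`, `g ∉ m`, is standard smooth of relative dimension one over `K`.
-/
import Mathlib

universe u

namespace Fermat.Agent.S26.Curves.H525
open Polynomial

/-- `K[X]` is standard smooth of relative dimension one over `K`. -/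
theorem c5_polynomial_isStandardSmoothOfRelativeDimension_one (K : Type*) [CommRing K]
    [Nontrivial K] : Algebra.IsStandardSmoothOfRelativeDimension 1 K K[X] := by
  have h1 : Algebra.IsStandardSmooth K (MvPolynomial Unit K) := by
    refine Algebra.IsStandardSmooth.of_basis_kaehlerDifferential
      (KaehlerDifferential.mvPolynomialBasis K Unit) ?_
    rintro _ ⟨i, rfl⟩
    exact ⟨MvPolynomial.X i, (KaehlerDifferential.mvPolynomialBasis_apply K Unit i).symm⟩
  have h2 : Algebra.IsStandardSmoothOfRelativeDimension 1 K (MvPolynomial Unit K) := by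
    rw [Algebra.IsStandardSmoothOfRelativeDimension.iff_of_isStandardSmooth]
    rw [rank_eq_card_basis (KaehlerDifferential.mvPolynomialBasis K Unit)]
    simp
  exact Algebra.IsStandardSmoothOfRelativeDimension.of_algEquiv 1
    (MvPolynomial.uniqueAlgEquiv K Unit)

section

variable {K D : Type*} [Field K] [IsAlgClosed K] [CommRing D] [Algebra K D]
  [Algebra.FiniteType K D]

/-- Nullstellensatz: closed points of a finite-type algebra over an algebraically closed field are
rational. -/
theorem c5_exists_sub_algebraMap_mem (m : Ideal D) [hm : m.IsMaximal] (d : D) :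
    ∃ c : K, d - algebraMap K D c ∈ m := by
  let : Field (D ⧸ m) := Ideal.Quotient.field m
  have : Algebra.FiniteType K (D ⧸ m) :=
    Algebra.FiniteType.of_surjective (Ideal.Quotient.mkₐ K m) (Ideal.Quotient.mkₐ_surjective K m)
  have : Module.Finite K (D ⧸ m) := finite_of_finite_type_of_isJacobsonRing K (D ⧸ m)
  obtain ⟨c, hc⟩ := (IsAlgClosed.algebraMap_bijective_of_isIntegral (k := K) (K := D ⧸ m)).2
    (Ideal.Quotient.mk m d)
  refine ⟨c, ?_⟩
  rw [← Ideal.Quotient.eq_zero_iff_mem, map_sub, ← hc]
  simp

variable [IsDedekindDomain D] [Algebra K[X] D] [IsScalarTower K K[X] D]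

omit [Algebra.FiniteType K D] in
theorem c5_algebraMap_polynomial_injective (m : Ideal D) [hm : m.IsMaximal]
    (hX : algebraMap K[X] D X ∈ m) (hX2 : algebraMap K[X] D X ∉ m ^ 2) :
    Function.Injective (algebraMap K[X] D) := by
  set t := algebraMap K[X] D X with ht
  have hae : ∀ p : K[X], algebraMap K[X] D p = aeval t p := by
    intro p
    have : (algebraMap K[X] D) = (aeval t : K[X] →ₐ[K] D).toRingHom := by
      apply Polynomial.ringHom_ext
      · intro a
        change algebraMap K[X] D (C a) = aeval t (C a)
        rw [aeval_C, IsScalarTower.algebraMap_apply K K[X] D, Polynomial.algebraMap_eq]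
      · simp [ht]
    rw [this]; rfl
  rw [injective_iff_map_eq_zero]
  intro p hp
  by_contra hp0
  have halg : IsAlgebraic K t := ⟨p, hp0, by rw [← hae, hp]⟩
  have hint : IsIntegral K t := halg.isIntegral
  obtain ⟨c, hc⟩ := minpoly.mem_range_of_degree_eq_one K t
    (IsAlgClosed.degree_eq_one_of_irreducible K (minpoly.irreducible hint))
  by_cases hc0 : c = 0
  · apply hX2
    rw [← hc, hc0, map_zero]
    exact Ideal.zero_mem _
  · have hu : IsUnit t := by
      rw [← hc]
      exact (IsUnit.mk0 c hc0).map (algebraMap K D)
    exact hm.ne_top (Ideal.eq_top_of_isUnit_mem _ hX hu)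

/-- A uniformiser at `m` generates the maximal ideal of the local ring at `m`. -/
theorem c5_map_span_singleton_eq_maximalIdeal {D : Type*} [CommRing D] [IsDedekindDomain D]
    (m : Ideal D) [hm : m.IsMaximal] {t : D} (ht : t ∈ m) (ht2 : t ∉ m ^ 2) :
    (Ideal.span {t}).map (algebraMap D (Localization.AtPrime m)) =
      IsLocalRing.maximalIdeal (Localization.AtPrime m) := by
  obtain ⟨J, hJ⟩ : m ∣ Ideal.span {t} :=
    Ideal.dvd_iff_le.mpr ((Ideal.span_singleton_le_iff_mem _).mpr ht)
  have hJm : ¬ J ≤ m := by
    intro h
    apply ht2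
    have : Ideal.span {t} ≤ m ^ 2 := by
      rw [hJ, pow_two]
      exact Ideal.mul_mono_right h
    exact this (Ideal.mem_span_singleton_self t)
  obtain ⟨j, hjJ, hjm⟩ := SetLike.not_le_iff_exists.mp hJm
  have hJtop : J.map (algebraMap D (Localization.AtPrime m)) = ⊤ := by
    apply Ideal.eq_top_of_isUnit_mem _ (Ideal.mem_map_of_mem _ hjJ)
    exact IsLocalization.map_units (Localization.AtPrime m) (⟨j, hjm⟩ : m.primeCompl)
  rw [hJ, Ideal.map_mul, hJtop, Ideal.mul_top, Localization.AtPrime.map_eq_maximalIdeal]

theorem c5_isEtaleAt_of_mem_of_notMem_sq (m : Ideal D) [hm : m.IsMaximal]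
    (hX : algebraMap K[X] D X ∈ m) (hX2 : algebraMap K[X] D X ∉ m ^ 2) :
    Algebra.IsEtaleAt K[X] m := by
  have hinj := c5_algebraMap_polynomial_injective m hX hX2
  have : Module.IsTorsionFree K[X] D := Module.isTorsionFree_iff_algebraMap_injective.mpr hinj
  have : Module.Flat K[X] D := inferInstance
  have : Algebra.FiniteType K[X] D := .of_restrictScalars_finiteType K K[X] D
  have : Algebra.FinitePresentation K[X] D := Algebra.FinitePresentation.of_finiteType.mp inferInstance
  have : Algebra.IsUnramifiedAt K[X] m := by
    let p := m.under K[X]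
    have : m.LiesOver p := ⟨rfl⟩
    let := Localization.AtPrime.algebraOfLiesOver p m
    rw [Algebra.isUnramifiedAt_iff_map_eq K[X] p m]
    constructor
    · -- trivial residue field extension
      refine ⟨fun x => ?_⟩
      obtain ⟨d, rfl⟩ := Ideal.algebraMap_residueField_surjective m x
      obtain ⟨c, hc⟩ := c5_exists_sub_algebraMap_mem (K := K) m d
      have : algebraMap D m.ResidueField d =
          algebraMap p.ResidueField m.ResidueField (algebraMap K p.ResidueField c) := by
        rw [← IsScalarTower.algebraMap_apply, IsScalarTower.algebraMap_apply K D m.ResidueField,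
          ← sub_eq_zero, ← map_sub]
        exact (Ideal.algebraMap_residueField_eq_zero).mpr hc
      rw [this]
      exact isSeparable_algebraMap _
    · apply le_antisymm
      · rw [Ideal.map_le_iff_le_comap]
        intro x hx
        rw [Ideal.mem_comap, IsScalarTower.algebraMap_apply K[X] D (Localization.AtPrime m),
          ← Localization.AtPrime.map_eq_maximalIdeal]
        exact Ideal.mem_map_of_mem _ hx
      · rw [← c5_map_span_singleton_eq_maximalIdeal m hX hX2, Ideal.map_span, Ideal.span_le]
        rintro _ ⟨_, rfl, rfl⟩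
        rw [← IsScalarTower.algebraMap_apply]
        exact Ideal.mem_map_of_mem _ (show X ∈ p from hX)
  exact Algebra.IsEtaleAt.of_isUnramifiedAt_of_flat m

end

/-- **A normal affine curve over an algebraically closed field is smooth.**  Let `D` be a
finite-type `K`-algebra which is a Dedekind domain and `m` a nonzero maximal ideal.  Then there is
`g ∉ m` such that `D[1/g]` is standard smooth of relative dimension one over `K`. -/
theorem c5_exists_isStandardSmoothOfRelativeDimension_one (K D : Type*) [Field K] [IsAlgClosed K]
    [CommRing D] [Algebra K D] [Algebra.FiniteType K D] [IsDedekindDomain D]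
    (m : Ideal D) [hm : m.IsMaximal] (hm0 : m ≠ ⊥) :
    ∃ g : D, g ∉ m ∧ Algebra.IsStandardSmoothOfRelativeDimension 1 K (Localization.Away g) := by
  obtain ⟨t, ht1, ht2⟩ := Ideal.exists_mem_pow_notMem_pow_succ m hm0 hm.ne_top 1
  rw [pow_one] at ht1
  let : Algebra K[X] D := (aeval t : K[X] →ₐ[K] D).toRingHom.toAlgebra
  have hXt : algebraMap K[X] D X = t := by
    change (aeval t : K[X] →ₐ[K] D) X = t
    exact aeval_X t
  have : IsScalarTower K K[X] D := IsScalarTower.of_algebraMap_eq' (by
    ext c
    change algebraMap K D c = (aeval t : K[X] →ₐ[K] D) (algebraMap K K[X] c)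
    rw [Polynomial.algebraMap_eq, aeval_C])
  have : Algebra.IsEtaleAt K[X] m := c5_isEtaleAt_of_mem_of_notMem_sq m (hXt ▸ ht1) (hXt ▸ ht2)
  have : Algebra.FiniteType K[X] D := .of_restrictScalars_finiteType K K[X] D
  have : Algebra.FinitePresentation K[X] D := Algebra.FinitePresentation.of_finiteType.mp inferInstance
  obtain ⟨g, hg, hetale⟩ := Algebra.exists_etale_of_isEtaleAt (R := K[X]) m
  refine ⟨g, hg, ?_⟩
  have h0 : Algebra.IsStandardSmoothOfRelativeDimension 0 K[X] (Localization.Away g) :=
    Algebra.Etale.iff_isStandardSmoothOfRelativeDimension_zero.mp hetale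
  have h1 := c5_polynomial_isStandardSmoothOfRelativeDimension_one K
  exact Algebra.IsStandardSmoothOfRelativeDimension.trans 1 0 K K[X] (Localization.Away g)

/-- Ring-hom form: for a finite-type `K`-algebra `D` (`K` algebraically closed) which is a Dedekind
domain and not a field, `K → D` is locally standard smooth of relative dimension one. -/
theorem c5_locally_isStandardSmoothOfRelativeDimension_one {K D : Type u} [Field K] [IsAlgClosed K]
    [CommRing D] [Algebra K D] [Algebra.FiniteType K D] [IsDedekindDomain D]
    (hD : ¬ IsField D) :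
    RingHom.Locally (RingHom.IsStandardSmoothOfRelativeDimension 1) (algebraMap K D) := by
  rw [RingHom.locally_iff_span_eq_top]
  by_contra hne
  obtain ⟨m, hm, hle⟩ := Ideal.exists_le_maximal _ hne
  have hm0 : m ≠ ⊥ := fun h => hD (Ring.isField_iff_maximal_bot.mpr (h ▸ hm))
  obtain ⟨g, hg, hsm⟩ := c5_exists_isStandardSmoothOfRelativeDimension_one K D m hm0
  apply hg
  apply hle
  apply Ideal.subset_span
  change ((algebraMap D (Localization.Away g)).comp (algebraMap K D)).IsStandardSmoothOfRelativeDimension 1
  rw [← IsScalarTower.algebraMap_eq, RingHom.isStandardSmoothOfRelativeDimension_algebraMap]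
  exact hsm

end Fermat.Agent.S26.Curves.H525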