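/-
S26, package P8 (CURVES), leaves C4 + C5 combined (helper525): the normalisation of an affine
curve over an algebraically closed field is a finite, finitely generated, Dedekind, smooth
`K`-algebra of relative dimension one.
-/
import Fermat.Agent.S26.Curves.H525.C4_h525
import Fermat.Agent.S26.Curves.H525.C5_h525
universe u

namespace Fermat.Agent.S26.Curves.H525
/-- The integral closure of a finitely generated domain over a perfect field is a finitely
generated algebra. -/
theorem c45_finiteType_integralClosure_of_perfect (K : Type*) [Field K] [PerfectField K]
    (R : Type*) [CommRing R] [IsDomain R] [Algebra K R] [Algebra.FiniteType K R]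
    (L : Type*) [Field L] [Algebra R L] [IsFractionRing R L] [Algebra K L] [IsScalarTower K R L] :
    Algebra.FiniteType K (integralClosure R L) := by
  have : Module.Finite R (integralClosure R L) := c4_finite_integralClosure_of_perfect K R L
  exact Algebra.FiniteType.trans (S := R) inferInstance inferInstance

/-- **Normalisation of an affine curve is smooth.**  `K` algebraically closed, `R` a finitely
generated `K`-domain with `Algebra.trdeg K R = 1`, `L = Frac R`.  Then `K → integralClosure R L`
is locally standard smooth of relative dimension one (the ring-hom property attached to
`AlgebraicGeometry.SmoothOfRelativeDimension 1`). -/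
theorem c45_locally_isStandardSmooth_integralClosure {K R L : Type u} [Field K] [IsAlgClosed K]
    [CommRing R] [IsDomain R] [Algebra K R] [Algebra.FiniteType K R]
    (htr : Algebra.trdeg K R = 1)
    [Field L] [Algebra R L] [IsFractionRing R L] [Algebra K L] [IsScalarTower K R L] :
    RingHom.Locally (RingHom.IsStandardSmoothOfRelativeDimension 1)
      (algebraMap K (integralClosure R L)) := by
  obtain ⟨-, hD, hF⟩ := c4_finite_and_isDedekindDomain K R htr L
  have := c45_finiteType_integralClosure_of_perfect K R L
  exact c5_locally_isStandardSmoothOfRelativeDimension_one hF

end Fermat.Agent.S26.Curves.H525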